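import Mathlib
import Fermat.Agent.H24ES.Hecke

set_option autoImplicit false
set_option linter.unusedSectionVars false

/-! Shapiro's lemma for `Γ₀(Mq) ⊂ Γ₀(M)` with coefficients. -/

noncomputable section

namespace Fermat.Agent.H28S

open Fermat.Agent.H24ES CongruenceSubgroup Matrix OnePoint
open scoped MatrixGroups

/-- the projective line -/
abbrev PL (q : ℕ) := OnePoint (ZMod q)

section Rep

variable (q : ℕ) [hq : Fact q.Prime] {R V : Type*} [CommRing R] [AddCommGroup V] [Module R V]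

lemma toGLf_one (f : ℕ) (h : IsUnit (redM f 1).det) : toGLf f 1 h = 1 := by
  apply Units.ext
  rw [coe_toGLf, map_one]; rfl

lemma toGLf_mul (f : ℕ) {A B : M2} (h : IsUnit (redM f (A * B)).det)
    (hA : IsUnit (redM f A).det) (hB : IsUnit (redM f B).det) :
    toGLf f (A * B) h = toGLf f A hA * toGLf f B hB := by
  apply Units.ext
  rw [coe_toGLf, map_mul]; rfl

lemma isUnit_one_det (f : ℕ) : IsUnit (redM f (1 : M2)).det := by
  rw [map_one, Matrix.det_one]; exact isUnit_one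

open Classical in
/-- functions on the projective line with values in `V` -/
def funRep (ρ : M2 →* Module.End R V) : M2 →* Module.End R (PL q → V) where
  toFun A := if h : IsUnit (redM q A).det then
      { toFun := fun φ P => ρ A (φ ((toGLf q A h)⁻¹ • P))
        map_add' := fun φ ψ => by funext P; simp
        map_smul' := fun c φ => by funext P; simp }
    else 0
  map_one' := by
    rw [dif_pos (isUnit_one_det q)]
    refine LinearMap.ext fun φ => ?_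
    funext P
    change ρ 1 (φ ((toGLf q 1 _)⁻¹ • P)) = φ P
    rw [toGLf_one, inv_one, one_smul, map_one]
    rfl
  map_mul' A B := by
    by_cases hA : IsUnit (redM q A).det
    · by_cases hB : IsUnit (redM q B).det
      · have hAB : IsUnit (redM q (A * B)).det := isUnit_det_mul.mpr ⟨hA, hB⟩
        rw [dif_pos hA, dif_pos hB, dif_pos hAB]
        refine LinearMap.ext fun φ => ?_
        funext P
        change ρ (A * B) (φ ((toGLf q (A * B) hAB)⁻¹ • P)) =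
          ρ A (ρ B (φ ((toGLf q B hB)⁻¹ • (toGLf q A hA)⁻¹ • P)))
        rw [toGLf_mul q hAB hA hB, _root_.mul_inv_rev, mul_smul, map_mul]
        rfl
      · have hAB : ¬ IsUnit (redM q (A * B)).det := fun h => hB (isUnit_det_mul.mp h).2
        rw [dif_neg hB, dif_neg hAB, mul_zero]
    · have hAB : ¬ IsUnit (redM q (A * B)).det := fun h => hA (isUnit_det_mul.mp h).1
      rw [dif_neg hA, dif_neg hAB, zero_mul]

variable {q}

lemma funRep_apply (ρ : M2 →* Module.End R V) {A : M2} (h : IsUnit (redM q A).det)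
    (φ : PL q → V) (P : PL q) : funRep q ρ A φ P = ρ A (φ ((toGLf q A h)⁻¹ • P)) := by
  have h1 : funRep q ρ A = _ := dif_pos h
  rw [h1]
  rfl

lemma funRep_of_not (ρ : M2 →* Module.End R V) {A : M2} (h : ¬ IsUnit (redM q A).det) :
    funRep q ρ A = 0 := dif_neg h

variable (q)

open Classical in
/-- the representation `ρ` with matrices of determinant divisible by `q` acting by zero -/
def offq (ρ : M2 →* Module.End R V) : M2 →* Module.End R V where
  toFun A := if IsUnit (redM q A).det then ρ A else 0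
  map_one' := by rw [if_pos (isUnit_one_det q), map_one]
  map_mul' A B := by
    by_cases hA : IsUnit (redM q A).det
    · by_cases hB : IsUnit (redM q B).det
      · have hAB : IsUnit (redM q (A * B)).det := isUnit_det_mul.mpr ⟨hA, hB⟩
        rw [if_pos hA, if_pos hB, if_pos hAB, map_mul]
      · have hAB : ¬ IsUnit (redM q (A * B)).det := fun h => hB (isUnit_det_mul.mp h).2
        rw [if_neg hB, if_neg hAB, mul_zero]
    · have hAB : ¬ IsUnit (redM q (A * B)).det := fun h => hA (isUnit_det_mul.mp h).1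
      rw [if_neg hA, if_neg hAB, zero_mul]

variable {q}

lemma offq_apply (ρ : M2 →* Module.End R V) {A : M2} (h : IsUnit (redM q A).det) :
    offq q ρ A = ρ A := if_pos h

lemma offq_of_not (ρ : M2 →* Module.End R V) {A : M2} (h : ¬ IsUnit (redM q A).det) :
    offq q ρ A = 0 := if_neg h

end Rep

section Act

variable (q : ℕ) [hq : Fact q.Prime] {M : ℕ}

lemma isUnit_gm (γ : Gamma0 M) : IsUnit (redM q (gm γ)).det := by
  rw [det_redM, det_gm, Int.cast_one]; exact isUnit_one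

/-- reduction modulo `q` -/
def glq : Gamma0 M →* GL (Fin 2) (ZMod q) where
  toFun γ := toGLf q (gm γ) (isUnit_gm q γ)
  map_one' := toGLf_one q _
  map_mul' _ _ := toGLf_mul q _ _ _

lemma glq_def (γ : Gamma0 M) : glq q γ = toGLf q (gm γ) (isUnit_gm q γ) := rfl

lemma glq_apply (γ : Gamma0 M) (i j : Fin 2) : glq q γ i j = ((gm γ i j : ℤ) : ZMod q) := rfl

lemma glq_smul_inf_iff (γ : Gamma0 M) :
    glq q γ • (∞ : PL q) = ∞ ↔ (q : ℤ) ∣ gm γ 1 0 := by
  rw [smul_infty_eq_self_iff, glq_apply, ZMod.intCast_zmod_eq_zero_iff_dvd]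

lemma gm_inv_smul {R V : Type*} [CommRing R] [AddCommGroup V] [Module R V]
    (ρ : M2 →* Module.End R V) (γ : Gamma0 M) (φ : PL q → V) (P : PL q) :
    funRep q ρ (gm γ) φ P = ρ (gm γ) (φ ((glq q γ)⁻¹ • P)) :=
  funRep_apply ρ (isUnit_gm q γ) φ P

variable {q}

/-- transitivity of `Γ₀(M)` on the projective line, `q ∤ M` -/
lemma exists_sec (hqM : ¬ q ∣ M) (P : PL q) : ∃ g : Gamma0 M, glq q g • (∞ : PL q) = P := by
  induction P using OnePoint.rec with
  | infty => exact ⟨1, by rw [map_one, one_smul]⟩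
  | coe t =>
    have hcop : IsCoprime (M : ℤ) (q : ℤ) := by
      rw [Nat.isCoprime_iff_coprime, Nat.coprime_comm]
      exact (Nat.Prime.coprime_iff_not_dvd hq.out).mpr hqM
    obtain ⟨x, y, hxy⟩ := hcop
    obtain ⟨k, hk⟩ := ZMod.intCast_surjective (t - 1)
    let c : ℤ := x * M
    have hc1 : ((c : ℤ) : ZMod q) = 1 := by
      have h1 := congrArg (Int.cast : ℤ → ZMod q) hxy
      push_cast at h1
      rw [CharP.cast_eq_zero (ZMod q) q, mul_zero, add_zero] at h1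
      change ((x * M : ℤ) : ZMod q) = 1
      push_cast
      exact h1
    let B : M2 := !![1 + c * k, k; c, 1]
    have hB : B.det = 1 := by
      simp only [B, Matrix.det_fin_two_of]; ring
    refine ⟨mkG B hB (by simp [B, c]), ?_⟩
    rw [smul_infty_eq_ite]
    have e10 : glq q (mkG (N := M) B hB (by simp [B, c])) 1 0 = 1 := by
      rw [glq_apply, gm_mkG]
      simpa [B] using hc1
    have e00 : glq q (mkG (N := M) B hB (by simp [B, c])) 0 0 = t := by
      rw [glq_apply, gm_mkG]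
      have : B 0 0 = 1 + c * k := by simp [B]
      rw [this]
      push_cast
      rw [hc1, hk]
      ring
    rw [if_neg (by rw [e10]; exact one_ne_zero), e10, e00, div_one]

open Classical in
/-- a section of `Γ₀(M) → ℙ¹(𝔽_q)` -/
def sec (hqM : ¬ q ∣ M) (P : PL q) : Gamma0 M := if P = ∞ then 1 else (exists_sec hqM P).choose

lemma sec_smul (hqM : ¬ q ∣ M) (P : PL q) : glq q (sec hqM P) • (∞ : PL q) = P := by
  unfold sec
  split_ifs with h
  · rw [map_one, one_smul, h]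
  · exact (exists_sec hqM P).choose_spec

lemma sec_inf (hqM : ¬ q ∣ M) : sec hqM (∞ : PL q) = (1 : Gamma0 M) := if_pos rfl

variable (M q)

/-- the inclusion of `Γ₀(Mq)` -/
def up : Gamma0 (M * q) →* Gamma0 M where
  toFun γ := mkG (gm γ) (det_gm γ) (((dvd_mul_right (M : ℤ) q).trans
    (by exact_mod_cast dvd_gm γ)))
  map_one' := gm_injective rfl
  map_mul' _ _ := gm_injective rfl

@[simp] lemma gm_up (γ : Gamma0 (M * q)) : gm (up q M γ) = gm γ := rfl

lemma up_smul (γ : Gamma0 (M * q)) : glq q (up q M γ) • (∞ : PL q) = ∞ := by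
  rw [glq_smul_inf_iff, gm_up]
  have h := dvd_gm γ
  push_cast at h
  exact (dvd_mul_left (q : ℤ) M).trans h

lemma up_inv_smul (γ : Gamma0 (M * q)) : (glq q (up q M γ))⁻¹ • (∞ : PL q) = ∞ := by
  rw [inv_smul_eq_iff, up_smul]

variable {M q}

/-- elements fixing `∞` belong to `Γ₀(Mq)` -/
def dn (hqM : ¬ q ∣ M) (h : Gamma0 M) (hh : glq q h • (∞ : PL q) = ∞) : Gamma0 (M * q) :=
  mkG (gm h) (det_gm h) (by
    have h1 := (glq_smul_inf_iff q h).mp hh
    have hcop : IsCoprime (M : ℤ) (q : ℤ) := by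
      rw [Nat.isCoprime_iff_coprime, Nat.coprime_comm]
      exact (Nat.Prime.coprime_iff_not_dvd hq.out).mpr hqM
    push_cast
    exact hcop.mul_dvd (dvd_gm h) h1)

@[simp] lemma gm_dn (hqM : ¬ q ∣ M) (h : Gamma0 M) (hh : glq q h • (∞ : PL q) = ∞) :
    gm (dn hqM h hh) = gm h := rfl

lemma up_dn (hqM : ¬ q ∣ M) (h : Gamma0 M) (hh : glq q h • (∞ : PL q) = ∞) :
    up q M (dn hqM h hh) = h := gm_injective rfl

lemma dn_up (hqM : ¬ q ∣ M) (γ : Gamma0 (M * q)) :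
    dn hqM (up q M γ) (up_smul q M γ) = γ := gm_injective rfl

end Act

section Shapiro

variable {q : ℕ} [hq : Fact q.Prime] {M : ℕ} {R V : Type*} [CommRing R] [AddCommGroup V]
  [Module R V] (ρ : M2 →* Module.End R V)

/-- the Shapiro map on cocycles -/
def shZ : Z1 M (funRep q ρ) →ₗ[R] Z1 (M * q) ρ where
  toFun U := ⟨fun γ => U.1 (up q M γ) ∞, by
    refine ⟨fun γ δ => ?_, fun γ hγ => ?_⟩
    · change U.1 (up q M (γ * δ)) ∞ = U.1 (up q M γ) ∞ + ρ (gm γ) (U.1 (up q M δ) ∞)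
      rw [map_mul, Z1.mul U.2, Pi.add_apply, gm_inv_smul, up_inv_smul, gm_up]
    · have h := U.2.2 (up q M γ) hγ
      change U.1 (up q M γ) ∞ = 0
      rw [h]; rfl⟩
  map_add' U W := by apply Subtype.ext; funext γ; rfl
  map_smul' c U := by apply Subtype.ext; funext γ; rfl

@[simp] lemma coe_shZ (U : Z1 M (funRep q ρ)) (γ : Gamma0 (M * q)) :
    (shZ ρ U : Gamma0 (M * q) → V) γ = U.1 (up q M γ) ∞ := rfl

lemma shZ_mem_B1 {U : Z1 M (funRep q ρ)} (hU : (U : Gamma0 M → PL q → V) ∈ B1 M (funRep q ρ)) :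
    (shZ ρ U : Gamma0 (M * q) → V) ∈ B1 (M * q) ρ := by
  obtain ⟨Φ, hΦ⟩ := hU
  refine ⟨Φ ∞, ?_⟩
  funext γ
  rw [coe_shZ, ← hΦ, del_apply, del_apply, Pi.sub_apply, gm_inv_smul, up_inv_smul, gm_up]

/-- the Shapiro map on cohomology -/
def shH : H1 M (funRep q ρ) →ₗ[R] H1 (M * q) ρ :=
  Submodule.mapQ _ _ (shZ ρ) (fun _ hU => shZ_mem_B1 ρ hU)

@[simp] lemma shH_mk (U : Z1 M (funRep q ρ)) :
    shH ρ (Submodule.Quotient.mk U) = Submodule.Quotient.mk (shZ ρ U) := rfl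

lemma smul_sec {hqM : ¬ q ∣ M} (γ : Gamma0 M) (P : PL q) :
    glq q ((sec hqM P)⁻¹ * γ * sec hqM ((glq q γ)⁻¹ • P)) • (∞ : PL q) = ∞ := by
  rw [map_mul, map_mul, mul_smul, mul_smul, sec_smul, smul_inv_smul, map_inv, inv_smul_eq_iff,
    sec_smul]

/-- the element `g_P⁻¹ γ g_Q`, `Q = γ⁻¹ P` -/
def hh (hqM : ¬ q ∣ M) (γ : Gamma0 M) (P : PL q) : Gamma0 (M * q) :=
  dn hqM ((sec hqM P)⁻¹ * γ * sec hqM ((glq q γ)⁻¹ • P)) (smul_sec γ P)

lemma hh_mul (hqM : ¬ q ∣ M) (γ δ : Gamma0 M) (P : PL q) :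
    hh hqM (γ * δ) P = hh hqM γ P * hh hqM δ ((glq q γ)⁻¹ • P) := by
  apply gm_injective
  rw [gm_mul, hh, hh, hh, gm_dn, gm_dn, gm_dn, ← gm_mul]
  congr 1
  rw [map_mul, _root_.mul_inv_rev, mul_smul]
  simp only [mul_assoc, mul_inv_cancel_left]

lemma hh_neg {hqM : ¬ q ∣ M} {γ : Gamma0 M} (hγ : gm γ = -1) (P : PL q) :
    gm (hh hqM γ P) = -1 := by
  have h1 : (glq q γ)⁻¹ • P = P := by
    rw [inv_smul_eq_iff]
    have h2 : glq q γ = -1 := by
      apply Units.ext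
      rw [glq_def, coe_toGLf, hγ, map_neg, map_one]
      rfl
    rw [h2]
    induction P using OnePoint.rec with
    | infty => rw [smul_infty_eq_ite]; simp
    | coe t => rw [smul_some_eq_ite]; simp
  rw [hh, gm_dn, h1, gm_mul, gm_mul, hγ, gm_inv]
  rw [mul_neg, mul_one, neg_mul, adj_mul_gm]

/-- the inverse Shapiro construction -/
def ishZ (hqM : ¬ q ∣ M) (u : Z1 (M * q) ρ) : Z1 M (funRep q ρ) :=
  ⟨fun γ P => ρ (gm (sec hqM P)) (u.1 (hh hqM γ P)), by
    refine ⟨fun γ δ => ?_, fun γ hγ => ?_⟩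
    · funext P
      rw [Pi.add_apply, gm_inv_smul]
      change ρ (gm (sec hqM P)) (u.1 (hh hqM (γ * δ) P)) =
        ρ (gm (sec hqM P)) (u.1 (hh hqM γ P)) + ρ (gm γ) (ρ (gm (sec hqM ((glq q γ)⁻¹ • P)))
          (u.1 (hh hqM δ ((glq q γ)⁻¹ • P))))
      rw [hh_mul, Z1.mul u.2, map_add]
      congr 1
      rw [← LinearMap.comp_apply, ← LinearMap.comp_apply]
      change (ρ (gm (sec hqM P)) * ρ (gm (hh hqM γ P))) _ =
        (ρ (gm γ) * ρ (gm (sec hqM ((glq q γ)⁻¹ • P)))) _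
      rw [← map_mul, ← map_mul]
      congr 2
      rw [hh, gm_dn, ← gm_mul, ← gm_mul]
      congr 1
      simp only [mul_assoc, mul_inv_cancel_left]
    · funext P
      change ρ (gm (sec hqM P)) (u.1 (hh hqM γ P)) = 0
      rw [u.2.2 _ (hh_neg hγ P), map_zero]⟩

lemma shZ_ishZ (hqM : ¬ q ∣ M) (u : Z1 (M * q) ρ) : shZ ρ (ishZ ρ hqM u) = u := by
  apply Subtype.ext
  funext γ
  change ρ (gm (sec hqM ∞)) (u.1 (hh hqM (up q M γ) ∞)) = u.1 γ
  have h1 : hh hqM (up q M γ) (∞ : PL q) = γ := by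
    apply gm_injective
    rw [hh, gm_dn, up_inv_smul, sec_inf, inv_one, one_mul, mul_one, gm_up]
  rw [sec_inf, gm_one, map_one, h1]
  rfl

theorem shH_surjective (hqM : ¬ q ∣ M) : Function.Surjective (shH (q := q) (M := M) ρ) := by
  intro x
  obtain ⟨u, rfl⟩ := Submodule.Quotient.mk_surjective _ x
  exact ⟨Submodule.Quotient.mk (ishZ ρ hqM u), by rw [shH_mk, shZ_ishZ]⟩

theorem shH_injective (hqM : ¬ q ∣ M) : Function.Injective (shH (q := q) (M := M) ρ) := by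
  classical
  rw [← LinearMap.ker_eq_bot, LinearMap.ker_eq_bot']
  intro x hx
  obtain ⟨U, rfl⟩ := Submodule.Quotient.mk_surjective _ x
  rw [shH_mk, Submodule.Quotient.mk_eq_zero, Submodule.mem_comap] at hx
  obtain ⟨w, hw⟩ := hx
  rw [Submodule.Quotient.mk_eq_zero, Submodule.mem_comap]
  -- the function `Φ`
  let Φ : PL q → V := fun P => ρ (gm (sec hqM P)) w - U.1 (sec hqM P) P
  refine ⟨Φ, ?_⟩
  funext γ P
  rw [del_apply, Pi.sub_apply, gm_inv_smul]
  set Q := (glq q γ)⁻¹ • P with hQ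
  change ρ (gm γ) (ρ (gm (sec hqM Q)) w - U.1 (sec hqM Q) Q) -
    (ρ (gm (sec hqM P)) w - U.1 (sec hqM P) P) = U.1 γ P
  -- `γ g_Q = g_P h`
  have h1 : γ * sec hqM Q = sec hqM P * up q M (hh hqM γ P) := by
    rw [hh, up_dn, ← hQ]
    simp only [mul_assoc, mul_inv_cancel_left]
  have h2 : U.1 (γ * sec hqM Q) P = U.1 γ P + ρ (gm γ) (U.1 (sec hqM Q) Q) := by
    rw [Z1.mul U.2, Pi.add_apply, gm_inv_smul]
  have h3 : U.1 (sec hqM P * up q M (hh hqM γ P)) P = U.1 (sec hqM P) P +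
      ρ (gm (sec hqM P)) (U.1 (up q M (hh hqM γ P)) ∞) := by
    rw [Z1.mul U.2, Pi.add_apply, gm_inv_smul]
    have : (glq q (sec hqM P))⁻¹ • P = ∞ := by rw [inv_smul_eq_iff, sec_smul]
    rw [this]
  have h4 := congrFun hw (hh hqM γ P)
  rw [del_apply] at h4
  change _ = U.1 (up q M (hh hqM γ P)) ∞ at h4
  have h5 : ρ (gm (sec hqM P)) (ρ (gm (hh hqM γ P)) w) = ρ (gm γ) (ρ (gm (sec hqM Q)) w) := by
    change (ρ (gm (sec hqM P)) * ρ (gm (hh hqM γ P))) w = (ρ (gm γ) * ρ (gm (sec hqM Q))) w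
    rw [← map_mul, ← map_mul, ← gm_mul, h1]
    rfl
  rw [h1, h3, ← h4, map_sub, h5] at h2
  rw [map_sub]
  rw [← sub_eq_zero] at h2 ⊢
  rw [← h2]
  abel

/-- **Shapiro's lemma** -/
def shapiro (hqM : ¬ q ∣ M) : H1 M (funRep q ρ) ≃ₗ[R] H1 (M * q) ρ :=
  LinearEquiv.ofBijective (shH ρ) ⟨shH_injective ρ hqM, shH_surjective ρ hqM⟩

/-- the Hecke family at level `M q` maps to that of level `M` -/
lemma TF_up {ℓ : ℕ} (hℓ : ℓ.Prime) (hℓM : ¬ ℓ ∣ M) (hℓMq : ¬ ℓ ∣ M * q)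
    (γ : Gamma0 (M * q)) (i : Option (Fin ℓ)) :
    (TF M ℓ hℓ hℓM).τ (up q M γ) i = up q M ((TF (M * q) ℓ hℓ hℓMq).τ γ i) := by
  refine ((TF M ℓ hℓ hℓM).eq_of_spec (j := (TF (M * q) ℓ hℓ hℓMq).σ γ i) ?_).2
  have h := (TF (M * q) ℓ hℓ hℓMq).spec γ i
  rw [TF_α] at h ⊢
  rw [gm_up, gm_up]
  exact h

lemma isUnit_tα {ℓ : ℕ} (hℓ : ℓ.Prime) (hℓq : ℓ ≠ q) (i : Option (Fin ℓ)) :
    IsUnit (redM q (tα ℓ i).adjugate).det := by
  apply isUnit_redM_of_det (ℓ := ℓ)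
  · rw [Matrix.det_adjugate, det_tα, Fintype.card_fin]; simp
  · rw [Nat.isCoprime_iff_coprime]
    exact (Nat.coprime_primes hℓ hq.out).mpr hℓq

lemma adj_tα_smul {ℓ : ℕ} (hℓ : ℓ.Prime) (hℓq : ℓ ≠ q) (i : Option (Fin ℓ)) :
    (toGLf q (tα ℓ i).adjugate (isUnit_tα hℓ hℓq i))⁻¹ • (∞ : PL q) = ∞ := by
  rw [inv_smul_eq_iff, eq_comm, smul_infty_eq_self_iff]
  change (((tα ℓ i).adjugate 1 0 : ℤ) : ZMod q) = 0
  cases i with
  | none => rw [tα_none, adj_diM]; simp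
  | some j => rw [tα_some, adj_upM]; simp

/-- the Shapiro isomorphism is Hecke equivariant -/
theorem shH_opH {ℓ : ℕ} (hℓ : ℓ.Prime) (hℓM : ¬ ℓ ∣ M) (hℓMq : ¬ ℓ ∣ M * q) (hℓq : ℓ ≠ q)
    (x : H1 M (funRep q ρ)) :
    shH ρ ((TF M ℓ hℓ hℓM).opH (funRep q ρ) x) = (TF (M * q) ℓ hℓ hℓMq).opH ρ (shH ρ x) := by
  obtain ⟨U, rfl⟩ := Submodule.Quotient.mk_surjective _ x
  rw [HFam.opH_mk, shH_mk, shH_mk, HFam.opH_mk]
  congr 1
  apply Subtype.ext
  funext γ
  rw [coe_shZ, HFam.coe_opZ, HFam.coe_opZ, HFam.op_apply, HFam.op_apply, Finset.sum_apply]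
  refine Finset.sum_congr rfl fun i _ => ?_
  rw [TF_α, TF_α, funRep_apply ρ (isUnit_tα hℓ hℓq i), adj_tα_smul hℓ hℓq, TF_up hℓ hℓM hℓMq, coe_shZ]

theorem shapiro_opH (hqM : ¬ q ∣ M) {ℓ : ℕ} (hℓ : ℓ.Prime) (hℓM : ¬ ℓ ∣ M) (hℓMq : ¬ ℓ ∣ M * q)
    (hℓq : ℓ ≠ q) (x : H1 M (funRep q ρ)) :
    shapiro ρ hqM ((TF M ℓ hℓ hℓM).opH (funRep q ρ) x) =
      (TF (M * q) ℓ hℓ hℓMq).opH ρ (shapiro ρ hqM x) :=
  shH_opH ρ hℓ hℓM hℓMq hℓq x

end Shapiro

end Fermat.Agent.H28S
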