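import Mathlib
import Fermat.Agent.H28S.Shapiro

set_option autoImplicit false
set_option linter.unusedSectionVars false

/-! The filtration of the functions on the projective line: constants and sum zero. -/

noncomputable section

namespace Fermat.Agent.H28S

open Fermat.Agent.H24ES CongruenceSubgroup Matrix OnePoint
open scoped MatrixGroups

/-! ### Change of coefficients, only using matrices of determinant prime to `q` -/

section Congr

variable {R V : Type*} [CommRing R] [AddCommGroup V] [Module R V] {N : ℕ}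
  {ρ ρ' : M2 →* Module.End R V}

lemma Z1_congr (h : ∀ γ : Gamma0 N, ρ (gm γ) = ρ' (gm γ)) : Z1 N ρ = Z1 N ρ' := by
  ext u
  constructor
  · rintro ⟨h1, h2⟩
    exact ⟨fun γ δ => by rw [h1, h], h2⟩
  · rintro ⟨h1, h2⟩
    exact ⟨fun γ δ => by rw [h1, h], h2⟩

lemma B1_congr (h : ∀ γ : Gamma0 N, ρ (gm γ) = ρ' (gm γ)) : B1 N ρ = B1 N ρ' := by
  have : del N ρ = del N ρ' := by
    refine LinearMap.ext fun w => ?_
    funext γ
    rw [del_apply, del_apply, h]
  rw [B1, B1, this]

/-- representations with the same restriction to `Γ₀(N)` have the same cohomology -/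
def congrH1 (h : ∀ γ : Gamma0 N, ρ (gm γ) = ρ' (gm γ)) : H1 N ρ ≃ₗ[R] H1 N ρ' :=
  Submodule.Quotient.equiv _ _ (LinearEquiv.ofEq _ _ (Z1_congr h)) (by
    ext x
    rw [Submodule.mem_map]
    constructor
    · rintro ⟨y, hy, rfl⟩
      rw [Submodule.mem_comap] at hy ⊢
      rw [← B1_congr h]
      exact hy
    · intro hx
      rw [Submodule.mem_comap] at hx
      rw [← B1_congr h] at hx
      exact ⟨⟨x.1, by rw [Z1_congr h]; exact x.2⟩, hx, rfl⟩)

lemma congrH1_mk (h : ∀ γ : Gamma0 N, ρ (gm γ) = ρ' (gm γ)) (u : Z1 N ρ) :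
    congrH1 h (Submodule.Quotient.mk u) =
      Submodule.Quotient.mk (⟨u.1, by rw [← Z1_congr h]; exact u.2⟩ : Z1 N ρ') := rfl

lemma congrH1_opH (h : ∀ γ : Gamma0 N, ρ (gm γ) = ρ' (gm γ)) {ι : Type*} [Fintype ι]
    (F : HFam N ι) (hF : ∀ i, ρ (F.α i).adjugate = ρ' (F.α i).adjugate) (x : H1 N ρ) :
    congrH1 h (F.opH ρ x) = F.opH ρ' (congrH1 h x) := by
  obtain ⟨u, rfl⟩ := Submodule.Quotient.mk_surjective _ x
  rw [HFam.opH_mk, congrH1_mk, congrH1_mk, HFam.opH_mk]
  congr 1
  apply Subtype.ext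
  funext γ
  change F.op ρ u.1 γ = F.op ρ' u.1 γ
  rw [HFam.op_apply, HFam.op_apply]
  exact Finset.sum_congr rfl fun i _ => by rw [hF]

end Congr

section Filt

variable (q : ℕ) [hq : Fact q.Prime] {R : Type*} (V : Type*) [CommRing R] [AddCommGroup V]
  [Module R V]

instance : Fintype (PL q) := inferInstanceAs (Fintype (Option (ZMod q)))

lemma card_PL : Fintype.card (PL q) = q + 1 := by
  change Fintype.card (Option (ZMod q)) = q + 1
  rw [Fintype.card_option, ZMod.card]

/-- the sum -/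
def sumL : (PL q → V) →ₗ[R] V where
  toFun φ := ∑ P, φ P
  map_add' φ ψ := by simp [Finset.sum_add_distrib]
  map_smul' c φ := by simp [Finset.smul_sum]

@[simp] lemma sumL_apply (φ : PL q → V) : sumL (R := R) q V φ = ∑ P, φ P := rfl

lemma sumL_surjective : Function.Surjective (sumL (R := R) q V) := by
  classical
  intro v
  refine ⟨Pi.single ∞ v, ?_⟩
  rw [sumL_apply, Finset.sum_pi_single', if_pos (Finset.mem_univ _)]

/-- functions of sum zero -/
def sumKer : Submodule R (PL q → V) := LinearMap.ker (sumL (R := R) q V)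

lemma mem_sumKer {φ : PL q → V} : φ ∈ sumKer (R := R) q V ↔ ∑ P, φ P = 0 := LinearMap.mem_ker

/-- the constants -/
def constL : V →ₗ[R] (PL q → V) where
  toFun v _ := v
  map_add' _ _ := rfl
  map_smul' _ _ := rfl

@[simp] lemma constL_apply (v : V) (P : PL q) : constL (R := R) q V v P = v := rfl

/-- the submodule of constants -/
def constSub : Submodule R (PL q → V) := LinearMap.range (constL (R := R) q V)

/-- the subquotient -/
abbrev Th : Type _ := (sumKer (R := R) q V) ⧸ (constSub (R := R) q V).comap (sumKer q V).subtype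

variable {V}

lemma sumL_funRep (ρ : M2 →* Module.End R V) (A : M2) (φ : PL q → V) :
    sumL (R := R) q V (funRep q ρ A φ) = offq q ρ A (sumL (R := R) q V φ) := by
  by_cases h : IsUnit (redM q A).det
  · rw [offq_apply ρ h, sumL_apply, sumL_apply, map_sum]
    rw [← Equiv.sum_comp (MulAction.toPerm ((toGLf q A h)⁻¹)) (fun P => ρ A (φ P))]
    exact Finset.sum_congr rfl fun P _ => funRep_apply ρ h φ P
  · rw [offq_of_not ρ h, funRep_of_not ρ h]
    simp

lemma funRep_const (ρ : M2 →* Module.End R V) (A : M2) (v : V) :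
    funRep q ρ A (constL (R := R) q V v) = constL (R := R) q V (offq q ρ A v) := by
  by_cases h : IsUnit (redM q A).det
  · funext P
    rw [offq_apply ρ h, funRep_apply ρ h]
    rfl
  · rw [offq_of_not ρ h, funRep_of_not ρ h]
    simp

lemma funRep_mem_sumKer (ρ : M2 →* Module.End R V) (A : M2) {φ : PL q → V}
    (hφ : φ ∈ sumKer (R := R) q V) : funRep q ρ A φ ∈ sumKer (R := R) q V := by
  change sumL (R := R) q V (funRep q ρ A φ) = 0
  rw [sumL_funRep]
  have h : sumL (R := R) q V φ = 0 := hφ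
  rw [h, map_zero]

/-- the representation on functions of sum zero -/
def sumRep (ρ : M2 →* Module.End R V) : M2 →* Module.End R (sumKer (R := R) q V) where
  toFun A := (funRep q ρ A).restrict (fun _ hφ => funRep_mem_sumKer q ρ A hφ)
  map_one' := by
    refine LinearMap.ext fun φ => Subtype.ext ?_
    change funRep q ρ 1 φ.1 = φ.1
    rw [map_one]; rfl
  map_mul' A B := by
    refine LinearMap.ext fun φ => Subtype.ext ?_
    change funRep q ρ (A * B) φ.1 = funRep q ρ A (funRep q ρ B φ.1)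
    rw [map_mul]; rfl

@[simp] lemma coe_sumRep (ρ : M2 →* Module.End R V) (A : M2) (φ : sumKer (R := R) q V) :
    (sumRep q ρ A φ : PL q → V) = funRep q ρ A φ.1 := rfl

lemma sumRep_comap (ρ : M2 →* Module.End R V) (A : M2) :
    (constSub (R := R) q V).comap (sumKer (R := R) q V).subtype ≤
      ((constSub (R := R) q V).comap (sumKer (R := R) q V).subtype).comap (sumRep q ρ A) := by
  rintro ⟨φ, hφ⟩ h
  rw [Submodule.mem_comap] at h ⊢
  obtain ⟨v, hv⟩ := h
  refine ⟨offq q ρ A v, ?_⟩
  change _ = funRep q ρ A φ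
  change _ = φ at hv
  rw [← hv, funRep_const]

/-- **the representation on `Th_q(V)`** -/
def thRep (ρ : M2 →* Module.End R V) : M2 →* Module.End R (Th (R := R) q V) where
  toFun A := Submodule.mapQ _ _ (sumRep q ρ A) (sumRep_comap q ρ A)
  map_one' := by
    refine LinearMap.ext fun x => ?_
    obtain ⟨φ, rfl⟩ := Submodule.Quotient.mk_surjective _ x
    rw [Submodule.mapQ_apply, map_one]; rfl
  map_mul' A B := by
    refine LinearMap.ext fun x => ?_
    obtain ⟨φ, rfl⟩ := Submodule.Quotient.mk_surjective _ x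
    rw [Submodule.mapQ_apply, map_mul]; rfl

@[simp] lemma thRep_mk (ρ : M2 →* Module.End R V) (A : M2) (φ : sumKer (R := R) q V) :
    thRep q ρ A (Submodule.Quotient.mk φ) = Submodule.Quotient.mk (sumRep q ρ A φ) := rfl

/-! ### the first exact sequence `0 → sumKer → Fun → V → 0` -/

lemma subtype_sumRep (ρ : M2 →* Module.End R V) (A : M2) (φ : sumKer (R := R) q V) :
    (sumKer (R := R) q V).subtype (sumRep q ρ A φ) =
      funRep q ρ A ((sumKer (R := R) q V).subtype φ) := rfl

lemma range_subtype_sumKer :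
    LinearMap.range (sumKer (R := R) q V).subtype = LinearMap.ker (sumL (R := R) q V) :=
  Submodule.range_subtype _

/-! ### the second exact sequence `0 → V → sumKer → Th → 0` -/

lemma const_mem_sumKer (hq1 : ((q + 1 : ℕ) : R) = 0) (v : V) :
    constL (R := R) q V v ∈ sumKer (R := R) q V := by
  rw [mem_sumKer]
  simp only [constL_apply, Finset.sum_const, Finset.card_univ, card_PL]
  rw [← Nat.cast_smul_eq_nsmul R, hq1, zero_smul]

/-- constants have sum zero if `q + 1 = 0` in `R` -/
def constK (hq1 : ((q + 1 : ℕ) : R) = 0) : V →ₗ[R] sumKer (R := R) q V :=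
  (constL (R := R) q V).codRestrict _ (const_mem_sumKer q hq1)

@[simp] lemma coe_constK (hq1 : ((q + 1 : ℕ) : R) = 0) (v : V) :
    (constK q hq1 v : PL q → V) = constL (R := R) q V v := rfl

lemma constK_injective (hq1 : ((q + 1 : ℕ) : R) = 0) :
    Function.Injective (constK (V := V) q hq1) := by
  intro v w h
  exact congrFun (congrArg Subtype.val h) ∞

lemma constK_offq (hq1 : ((q + 1 : ℕ) : R) = 0) (ρ : M2 →* Module.End R V) (A : M2) (v : V) :
    constK q hq1 (offq q ρ A v) = sumRep q ρ A (constK q hq1 v) := by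
  apply Subtype.ext
  rw [coe_constK, coe_sumRep, coe_constK, funRep_const]

/-- the quotient map -/
def thQ : sumKer (R := R) q V →ₗ[R] Th (R := R) q V := Submodule.mkQ _

lemma thQ_surjective : Function.Surjective (thQ (R := R) (V := V) q) :=
  Submodule.Quotient.mk_surjective _

lemma thQ_sumRep (ρ : M2 →* Module.End R V) (A : M2) (φ : sumKer (R := R) q V) :
    thQ (R := R) (V := V) q (sumRep q ρ A φ) = thRep q ρ A (thQ (R := R) (V := V) q φ) := rfl

lemma range_constK (hq1 : ((q + 1 : ℕ) : R) = 0) :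
    LinearMap.range (constK (V := V) q hq1) = LinearMap.ker (thQ (R := R) (V := V) q) := by
  ext φ
  rw [thQ, Submodule.ker_mkQ, Submodule.mem_comap]
  constructor
  · rintro ⟨v, rfl⟩
    exact ⟨v, rfl⟩
  · rintro ⟨v, hv⟩
    exact ⟨v, Subtype.ext hv⟩

/-! ### functoriality -/

section Funct

variable {V' : Type*} [AddCommGroup V'] [Module R V']

/-- functoriality of functions of sum zero -/
def sumMap (f : V →ₗ[R] V') : sumKer (R := R) q V →ₗ[R] sumKer (R := R) q V' :=
  (f.compLeft (PL q)).restrict (fun φ hφ => by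
    rw [mem_sumKer] at hφ ⊢
    change ∑ P, f (φ P) = 0
    rw [← map_sum, hφ, map_zero])

lemma coe_sumMap (f : V →ₗ[R] V') (φ : sumKer (R := R) q V) (P : PL q) :
    (sumMap q f φ : PL q → V') P = f (φ.1 P) := rfl

/-- functoriality of `Th_q` -/
def thMap (f : V →ₗ[R] V') : Th (R := R) q V →ₗ[R] Th (R := R) q V' :=
  Submodule.mapQ _ _ (sumMap q f) (by
    rintro ⟨φ, hφ⟩ h
    rw [Submodule.mem_comap] at h ⊢
    obtain ⟨v, hv⟩ := h
    refine ⟨f v, ?_⟩
    funext P
    exact congrArg f (congrFun hv P))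

@[simp] lemma thMap_mk (f : V →ₗ[R] V') (φ : sumKer (R := R) q V) :
    thMap q f (Submodule.Quotient.mk φ) = Submodule.Quotient.mk (sumMap q f φ) := rfl

lemma thMap_thRep {ρ : M2 →* Module.End R V} {ρ' : M2 →* Module.End R V'} (f : V →ₗ[R] V')
    (hf : ∀ (A : M2) (v : V), IsUnit (redM q A).det → f (ρ A v) = ρ' A (f v)) (A : M2)
    (x : Th (R := R) q V) : thMap q f (thRep q ρ A x) = thRep q ρ' A (thMap q f x) := by
  obtain ⟨φ, rfl⟩ := Submodule.Quotient.mk_surjective _ x
  rw [thRep_mk, thMap_mk, thMap_mk, thRep_mk]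
  congr 1
  apply Subtype.ext
  funext P
  rw [coe_sumMap, coe_sumRep, coe_sumRep]
  by_cases h : IsUnit (redM q A).det
  · rw [funRep_apply ρ h, funRep_apply ρ' h, hf A _ h]
    rfl
  · rw [funRep_of_not ρ h, funRep_of_not ρ' h]
    exact map_zero f

/-- isomorphisms -/
def thCongr (e : V ≃ₗ[R] V') : Th (R := R) q V ≃ₗ[R] Th (R := R) q V' :=
  LinearEquiv.ofLinearMap (thMap q e.toLinearMap) (thMap q e.symm.toLinearMap)
    (by
      refine LinearMap.ext fun x => ?_
      obtain ⟨φ, rfl⟩ := Submodule.Quotient.mk_surjective _ x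
      change Submodule.Quotient.mk (sumMap q e.toLinearMap (sumMap q e.symm.toLinearMap φ)) = _
      congr 1
      apply Subtype.ext
      funext P
      simp [coe_sumMap])
    (by
      refine LinearMap.ext fun x => ?_
      obtain ⟨φ, rfl⟩ := Submodule.Quotient.mk_surjective _ x
      change Submodule.Quotient.mk (sumMap q e.symm.toLinearMap (sumMap q e.toLinearMap φ)) = _
      congr 1
      apply Subtype.ext
      funext P
      simp [coe_sumMap])

@[simp] lemma thCongr_apply (e : V ≃ₗ[R] V') (x : Th (R := R) q V) :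
    thCongr q e x = thMap q e.toLinearMap x := rfl

end Funct

/-! ### dependence on residues and the action of `-1` -/

section level

lemma redM_congr_of_dvd {f g : ℕ} (h : f ∣ g) {A B : M2} (hAB : redM g A = redM g B) :
    redM f A = redM f B := by
  ext i j
  have h1 : ((A i j : ℤ) : ZMod g) = ((B i j : ℤ) : ZMod g) := congrFun (congrFun hAB i) j
  change ((A i j : ℤ) : ZMod f) = ((B i j : ℤ) : ZMod f)
  rw [ZMod.intCast_eq_intCast_iff_dvd_sub] at h1 ⊢
  exact (by exact_mod_cast h : (f : ℤ) ∣ g).trans h1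

lemma toGLf_congr {f : ℕ} {A B : M2} (hAB : redM f A = redM f B) (hA : IsUnit (redM f A).det)
    (hB : IsUnit (redM f B).det) : toGLf f A hA = toGLf f B hB := Units.ext hAB

/-- `offq` only depends on residues modulo `q f` -/
lemma offq_congr {f : ℕ} {ρ : M2 →* Module.End R V}
    (hρ : ∀ A B : M2, redM f A = redM f B → ρ A = ρ B) (A B : M2)
    (hAB : redM (f * q) A = redM (f * q) B) : offq q ρ A = offq q ρ B := by
  have h1 := redM_congr_of_dvd (Dvd.intro q rfl) hAB
  have h2 := redM_congr_of_dvd (Dvd.intro_left f rfl) hAB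
  by_cases h : IsUnit (redM q A).det
  · rw [offq_apply ρ h, offq_apply ρ (h2 ▸ h), hρ A B h1]
  · rw [offq_of_not ρ h, offq_of_not ρ (h2 ▸ h)]

/-- `funRep` only depends on residues modulo `q f` -/
lemma funRep_congr {f : ℕ} {ρ : M2 →* Module.End R V}
    (hρ : ∀ A B : M2, redM f A = redM f B → ρ A = ρ B) (A B : M2)
    (hAB : redM (f * q) A = redM (f * q) B) : funRep q ρ A = funRep q ρ B := by
  have h1 := redM_congr_of_dvd (Dvd.intro q rfl) hAB
  have h2 := redM_congr_of_dvd (Dvd.intro_left f rfl) hAB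
  by_cases h : IsUnit (redM q A).det
  · have h' : IsUnit (redM q B).det := h2 ▸ h
    refine LinearMap.ext fun φ => ?_
    funext P
    rw [funRep_apply ρ h, funRep_apply ρ h', hρ A B h1, toGLf_congr h2 h h']
  · rw [funRep_of_not ρ h, funRep_of_not ρ (h2 ▸ h)]

lemma sumRep_congr {f : ℕ} {ρ : M2 →* Module.End R V}
    (hρ : ∀ A B : M2, redM f A = redM f B → ρ A = ρ B) (A B : M2)
    (hAB : redM (f * q) A = redM (f * q) B) : sumRep q ρ A = sumRep q ρ B := by
  refine LinearMap.ext fun φ => Subtype.ext ?_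
  rw [coe_sumRep, coe_sumRep, funRep_congr q hρ A B hAB]

lemma thRep_congr {f : ℕ} {ρ : M2 →* Module.End R V}
    (hρ : ∀ A B : M2, redM f A = redM f B → ρ A = ρ B) (A B : M2)
    (hAB : redM (f * q) A = redM (f * q) B) : thRep q ρ A = thRep q ρ B := by
  refine LinearMap.ext fun x => ?_
  obtain ⟨φ, rfl⟩ := Submodule.Quotient.mk_surjective _ x
  rw [thRep_mk, thRep_mk, sumRep_congr q hρ A B hAB]

lemma isUnit_neg_one_det : IsUnit (redM q (-1 : M2)).det := by
  rw [map_neg, map_one, Matrix.det_neg, Matrix.det_one, mul_one, Fintype.card_fin]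
  exact isUnit_one.neg.pow 2

lemma toGLf_neg_one : toGLf q (-1 : M2) (isUnit_neg_one_det q) = -1 := by
  apply Units.ext
  rw [coe_toGLf, map_neg, map_one]
  rfl

lemma neg_one_smul_PL (P : PL q) : (-1 : GL (Fin 2) (ZMod q)) • P = P := by
  induction P using OnePoint.rec with
  | infty => rw [smul_infty_eq_ite]; simp
  | coe t => rw [smul_some_eq_ite]; simp

lemma offq_neg_one {ρ : M2 →* Module.End R V} (hρ : ρ (-1) = 1) : offq q ρ (-1) = 1 := by
  rw [offq_apply ρ (isUnit_neg_one_det q), hρ]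

lemma funRep_neg_one {ρ : M2 →* Module.End R V} (hρ : ρ (-1) = 1) : funRep q ρ (-1) = 1 := by
  refine LinearMap.ext fun φ => ?_
  funext P
  rw [funRep_apply ρ (isUnit_neg_one_det q), hρ]
  have : (toGLf q (-1 : M2) (isUnit_neg_one_det q))⁻¹ • P = P := by
    rw [inv_smul_eq_iff, toGLf_neg_one, neg_one_smul_PL]
  rw [this]
  rfl

lemma sumRep_neg_one {ρ : M2 →* Module.End R V} (hρ : ρ (-1) = 1) : sumRep q ρ (-1) = 1 := by
  refine LinearMap.ext fun φ => Subtype.ext ?_
  rw [coe_sumRep, funRep_neg_one q hρ]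
  rfl

lemma thRep_neg_one {ρ : M2 →* Module.End R V} (hρ : ρ (-1) = 1) : thRep q ρ (-1) = 1 := by
  refine LinearMap.ext fun x => ?_
  obtain ⟨φ, rfl⟩ := Submodule.Quotient.mk_surjective _ x
  rw [thRep_mk, sumRep_neg_one q hρ]
  rfl

end level

/-! ### `offq` and `ρ` -/

section offqIso

variable {N : ℕ}

lemma offq_gm (ρ : M2 →* Module.End R V) (γ : Gamma0 N) : offq q ρ (gm γ) = ρ (gm γ) :=
  offq_apply ρ (isUnit_gm q γ)

/-- `offq q ρ` and `ρ` have the same cohomology -/
def offH (ρ : M2 →* Module.End R V) : H1 N (offq q ρ) ≃ₗ[R] H1 N ρ := congrH1 (offq_gm q ρ)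

lemma offH_opH (ρ : M2 →* Module.End R V) {ℓ : ℕ} (hℓ : ℓ.Prime) (hℓN : ¬ ℓ ∣ N) (hℓq : ℓ ≠ q)
    (x : H1 N (offq q ρ)) :
    offH q ρ ((TF N ℓ hℓ hℓN).opH (offq q ρ) x) = (TF N ℓ hℓ hℓN).opH ρ (offH q ρ x) :=
  congrH1_opH (offq_gm q ρ) (TF N ℓ hℓ hℓN)
    (fun i => by rw [TF_α]; exact offq_apply ρ (isUnit_tα hℓ hℓq i)) x

end offqIso

end Filt

end Fermat.Agent.H28S
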