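import Mathlib
import Fermat.Agent.H28S.Filt
import Fermat.Agent.H24H.Exact

set_option autoImplicit false
set_option linter.unusedSectionVars false

/-! Adding a prime to the level: the dimension formula. -/

noncomputable section

namespace Fermat.Agent.H28S

open Fermat.Agent.H24ES Fermat.Agent.H24H CongruenceSubgroup Matrix ModularGroup Module
open Fermat.Agent.TC (Pr S_sq)
open scoped MatrixGroups

/-! ### The condition at the elliptic points of order two -/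

lemma NoS.of_dvd {N N' : ℕ} (h : NoS N) (hd : N ∣ N') : NoS N' := by
  intro x hx
  apply h x
  rw [Gamma0_mem, ZMod.intCast_zmod_eq_zero_iff_dvd] at hx ⊢
  exact (by exact_mod_cast hd : (N : ℤ) ∣ N').trans hx

lemma noS_of_prime {N r : ℕ} (hr : r.Prime) (hr4 : r % 4 = 3) (hrN : r ∣ N) : NoS N := by
  intro g h
  set A : SL(2, ℤ) := g * S * g⁻¹ with hA
  have hA2 : A * A = -1 := by
    rw [hA]
    have h1 : g * S * g⁻¹ * (g * S * g⁻¹) = g * (S * S) * g⁻¹ := by group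
    rw [h1, ← pow_two, S_sq, mul_neg, mul_one, neg_mul, mul_inv_cancel]
  have : Fact r.Prime := ⟨hr⟩
  have h10 : ((A 1 0 : ℤ) : ZMod r) = 0 := by
    rw [Gamma0_mem] at h
    rw [ZMod.intCast_zmod_eq_zero_iff_dvd] at h ⊢
    exact (by exact_mod_cast hrN : (r : ℤ) ∣ N).trans h
  have h2 : (A 0 0 * A 0 0 + A 0 1 * A 1 0 : ℤ) = -1 := by
    have h3 : (A.1 * A.1) 0 0 = (-1 : M2) 0 0 :=
      congrFun (congrFun (congrArg Subtype.val hA2) 0) 0
    rw [Matrix.mul_apply, Fin.sum_univ_two] at h3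
    rw [Matrix.neg_apply, Matrix.one_apply_eq] at h3
    exact h3
  have h3 := congrArg (Int.cast : ℤ → ZMod r) h2
  push_cast at h3
  rw [h10, mul_zero, add_zero] at h3
  have h4 : IsSquare (-1 : ZMod r) := ⟨_, h3.symm⟩
  exact (ZMod.exists_sq_eq_neg_one_iff.mp h4) hr4

lemma noS_of_four {N : ℕ} (h4 : 4 ∣ N) : NoS N := by
  intro g h
  set A : SL(2, ℤ) := g * S * g⁻¹ with hA
  have hA2 : A * A = -1 := by
    rw [hA]
    have h1 : g * S * g⁻¹ * (g * S * g⁻¹) = g * (S * S) * g⁻¹ := by group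
    rw [h1, ← pow_two, S_sq, mul_neg, mul_one, neg_mul, mul_inv_cancel]
  have h10 : ((A 1 0 : ℤ) : ZMod 4) = 0 := by
    rw [Gamma0_mem] at h
    rw [ZMod.intCast_zmod_eq_zero_iff_dvd] at h ⊢
    exact (by exact_mod_cast h4 : ((4 : ℕ) : ℤ) ∣ N).trans h
  have h2 : (A 0 0 * A 0 0 + A 0 1 * A 1 0 : ℤ) = -1 := by
    have h3 : (A.1 * A.1) 0 0 = (-1 : M2) 0 0 :=
      congrFun (congrFun (congrArg Subtype.val hA2) 0) 0
    rw [Matrix.mul_apply, Fin.sum_univ_two] at h3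
    rw [Matrix.neg_apply, Matrix.one_apply_eq] at h3
    exact h3
  have h3 := congrArg (Int.cast : ℤ → ZMod 4) h2
  push_cast at h3
  rw [h10, mul_zero, add_zero] at h3
  generalize ((A 0 0 : ℤ) : ZMod 4) = t at h3
  revert t
  decide

/-! ### The dimension formula -/

section Result

variable {K : Type*} [Field K] [IsAlgClosed K] {V : Type*} [AddCommGroup V] [Module K V]
  [FiniteDimensional K V] {M q c D : ℕ} [NeZero M] [hq : Fact q.Prime]
  {ρ : M2 →* Module.End K V}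

lemma cong_funRep (hcong : Cong c ρ) : Cong (c * q) (funRep q ρ) := funRep_congr q hcong

lemma cong_offq (hcong : Cong c ρ) : Cong (c * q) (offq q ρ) := offq_congr q hcong

lemma cong_sumRep (hcong : Cong c ρ) : Cong (c * q) (sumRep q ρ) := sumRep_congr q hcong

lemma cong_thRep (hcong : Cong c ρ) : Cong (c * q) (thRep q ρ) := thRep_congr q hcong

lemma Pr.not_dvd {D : ℕ} (ℓ : Pr D) {N : ℕ} (h : N ∣ D) : ¬ (ℓ : ℕ) ∣ N :=
  fun h' => ℓ.2.2 (h'.trans h)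

omit [FiniteDimensional K V] [IsAlgClosed K] in
lemma shapiro_TH (hqM : ¬ q ∣ M) (hMD : M ∣ D) (hMqD : M * q ∣ D) (ℓ : Pr D)
    (x : H1 M (funRep q ρ)) :
    shapiro ρ hqM (TH (funRep q ρ) hMD ℓ x) = TH ρ hMqD ℓ (shapiro ρ hqM x) :=
  shapiro_opH ρ hqM ℓ.2.1 _ _ (fun h => ℓ.2.2 (h ▸ (Dvd.intro_left M rfl).trans hMqD)) x

omit [FiniteDimensional K V] [IsAlgClosed K] in
lemma offH_TH (hMD : M ∣ D) (hqD : q ∣ D) (ℓ : Pr D) (x : H1 M (offq q ρ)) :
    offH q ρ (TH (offq q ρ) hMD ℓ x) = TH ρ hMD ℓ (offH q ρ x) :=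
  offH_opH q ρ ℓ.2.1 _ (fun h => ℓ.2.2 (h ▸ hqD)) x

theorem finrank_gpart_offq (hMD : M ∣ D) (hqD : q ∣ D) (Λ : Set (Pr D → K)) :
    finrank K (gpart (TH (offq q ρ) hMD) Λ) = finrank K (gpart (TH ρ hMD) Λ) :=
  finrank_gpart_equiv (offH q ρ) (offH_TH hMD hqD) Λ

theorem finrank_gpart_shapiro (hqM : ¬ q ∣ M) (hMD : M ∣ D) (hMqD : M * q ∣ D)
    (Λ : Set (Pr D → K)) :
    finrank K (gpart (TH (funRep q ρ) hMD) Λ) = finrank K (gpart (TH ρ hMqD) Λ) := by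
  have : NeZero (M * q) := ⟨mul_ne_zero (NeZero.ne M) hq.out.ne_zero⟩
  exact finrank_gpart_equiv (shapiro ρ hqM) (shapiro_TH hqM hMD hMqD) Λ

/-- **The dimension formula.** -/
theorem finrank_gpart_level (h2 : (2 : K) = 0) (hq2 : q ≠ 2) (hqM : ¬ q ∣ M)
    (hcong : Cong c ρ) (hρ : ρ (-1) = 1) (hS : NoS M) (hMqD : M * q ∣ D) (hMD : M ∣ D)
    (Λ : Set (Pr D → K)) (ℓ₁ : Pr D) (hℓ₁ : ((ℓ₁ : ℕ) : ZMod (c * q)) = 1)
    (hodd : (ℓ₁ : ℕ) ≠ 2) (hΛ : ∀ χ ∈ Λ, χ ℓ₁ ≠ 0) :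
    finrank K (gpart (TH ρ hMqD) Λ) =
      2 * finrank K (gpart (TH ρ hMD) Λ) + finrank K (gpart (TH (thRep q ρ) hMD) Λ) := by
  have hq1 : ((q + 1 : ℕ) : K) = 0 := by
    obtain ⟨m, hm⟩ := hq.out.odd_of_ne_two hq2
    have : (q + 1 : ℕ) = 2 * (m + 1) := by omega
    rw [this]
    push_cast
    rw [h2, zero_mul]
  have hqD : q ∣ D := (Dvd.intro_left M rfl).trans hMqD
  rw [← finrank_gpart_shapiro hqM hMD hMqD Λ]
  rw [finrank_gpart_H1 (ρ' := sumRep q ρ) (ρ'' := offq q ρ) h2 (cong_funRep hcong)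
    (funRep_neg_one q hρ) hS (sumKer (R := K) q V).subtype (subtype_sumRep q ρ)
    (sumL (R := K) q V) (sumL_funRep q ρ) (Submodule.subtype_injective _)
    (sumL_surjective q V) (range_subtype_sumKer q) hMD Λ ℓ₁ hℓ₁ hodd hΛ]
  rw [finrank_gpart_H1 (ρ := sumRep q ρ) (ρ' := offq q ρ) (ρ'' := thRep q ρ) h2
    (cong_sumRep hcong)
    (sumRep_neg_one q hρ) hS (constK q hq1) (constK_offq q hq1 ρ)
    (thQ (R := K) (V := V) q) (thQ_sumRep q ρ) (constK_injective q hq1)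
    (thQ_surjective q) (range_constK q hq1) hMD Λ ℓ₁ hℓ₁ hodd hΛ]
  rw [finrank_gpart_offq hMD hqD Λ]
  ring

end Result

end Fermat.Agent.H28S
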