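import Mathlib
import Fermat.Agent.H28S.Level
import Fermat.Agent.AL.Count

set_option autoImplicit false
set_option linter.unusedSectionVars false
set_option linter.style.haveILetI false

/-! The induction over the primes of the level. -/

noncomputable section

namespace Fermat.Agent.H28S

open Fermat.Agent.H24ES Fermat.Agent.H24H CongruenceSubgroup Matrix ModularGroup Module
open Fermat.Agent.TC (Pr TD)
open Fermat.Agent.AL (NF)
open scoped MatrixGroups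

/-! ### The abstract count -/

theorem count_abstract (Q : Finset ℕ) (h : Finset ℕ → Finset ℕ → ℕ) (n : Finset ℕ → ℕ)
    (h0 : ∀ A ⊆ Q, h A ∅ = 2 * ∑ C ∈ A.powerset, 2 ^ (A \ C).card * n C)
    (h1 : ∀ A ⊆ Q, ∀ B ⊆ Q, ∀ q ∈ Q, q ∉ A → q ∉ B → Disjoint A B →
      h (insert q A) B = 2 * h A B + h A (insert q B)) :
    ∀ B ⊆ Q, ∀ A ⊆ Q, Disjoint A B →
      h A B = 2 * ∑ C ∈ A.powerset, 2 ^ (A \ C).card * n (C ∪ B) := by
  intro B
  induction B using Finset.induction_on with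
  | empty =>
    intro _ A hA _
    rw [h0 A hA]
    simp only [Finset.union_empty]
  | insert q B hqB ih =>
    intro hB A hA hAB
    rw [Finset.insert_subset_iff] at hB
    rw [Finset.disjoint_insert_right] at hAB
    obtain ⟨hqA, hAB⟩ := hAB
    have e1 := h1 A hA B hB.2 q hB.1 hqA hqB hAB
    have e2 := ih hB.2 A hA hAB
    have e3 := ih hB.2 (insert q A) (Finset.insert_subset hB.1 hA)
      (Finset.disjoint_insert_left.mpr ⟨hqB, hAB⟩)
    rw [Finset.sum_powerset_insert hqA] at e3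
    have e4 : ∑ C ∈ A.powerset, 2 ^ (insert q A \ C).card * n (C ∪ B) =
        2 * ∑ C ∈ A.powerset, 2 ^ (A \ C).card * n (C ∪ B) := by
      rw [Finset.mul_sum]
      refine Finset.sum_congr rfl fun C hC => ?_
      have hqC : q ∉ C := fun h' => hqA (Finset.mem_powerset.mp hC h')
      rw [Finset.insert_sdiff_of_notMem _ hqC, Finset.card_insert_of_notMem (fun h' =>
        hqA (Finset.mem_sdiff.mp h').1)]
      ring
    have e5 : ∑ C ∈ A.powerset, 2 ^ (insert q A \ insert q C).card * n (insert q C ∪ B) =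
        ∑ C ∈ A.powerset, 2 ^ (A \ C).card * n (C ∪ insert q B) := by
      refine Finset.sum_congr rfl fun C hC => ?_
      rw [Finset.insert_union, Finset.union_insert, Finset.insert_sdiff_insert,
        Finset.sdiff_insert_of_notMem hqA]
    rw [e4, e5] at e3
    omega

/-! ### Sums over divisors -/

/-- the level -/
def lev (N' : ℕ) (A : Finset ℕ) : ℕ := N' * ∏ q ∈ A, q

lemma lev_empty (N' : ℕ) : lev N' ∅ = N' := by rw [lev, Finset.prod_empty, mul_one]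

lemma lev_insert {N' q : ℕ} {A : Finset ℕ} (hq : q ∉ A) : lev N' (insert q A) = lev N' A * q := by
  rw [lev, lev, Finset.prod_insert hq]
  ring

lemma lev_dvd {N' : ℕ} {A B : Finset ℕ} (h : A ⊆ B) : lev N' A ∣ lev N' B :=
  mul_dvd_mul_left _ (Finset.prod_dvd_prod_of_subset _ _ _ h)

lemma lev_ne_zero {N' : ℕ} (hN' : N' ≠ 0) {A : Finset ℕ} (hA : ∀ q ∈ A, q.Prime) :
    lev N' A ≠ 0 :=
  mul_ne_zero hN' (Finset.prod_ne_zero_iff.mpr fun q hq => (hA q hq).ne_zero)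

lemma sum_divisors_lev {N' : ℕ} (hN' : N' ≠ 0) {A : Finset ℕ} (hA : ∀ q ∈ A, q.Prime)
    (F : ℕ → ℕ) (hF : ∀ L, L ∣ lev N' A → ¬ N' ∣ L → F L = 0) :
    ∑ L ∈ (lev N' A).divisors, F L = ∑ C ∈ A.powerset, F (lev N' C) := by
  classical
  have hinj : Set.InjOn (fun C : Finset ℕ => lev N' C) (A.powerset : Set (Finset ℕ)) := by
    intro C hC C' hC' h
    rw [Finset.mem_coe, Finset.mem_powerset] at hC hC'
    have h1 : ∏ q ∈ C, q = ∏ q ∈ C', q := Nat.eq_of_mul_eq_mul_left (Nat.pos_of_ne_zero hN') h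
    rw [← Nat.primeFactors_prod (fun p hp => hA p (hC hp)), h1,
      Nat.primeFactors_prod (fun p hp => hA p (hC' hp))]
  rw [← Finset.sum_image (f := F) hinj]
  symm
  refine Finset.sum_subset ?_ ?_
  · intro L hL
    obtain ⟨C, hC, rfl⟩ := Finset.mem_image.mp hL
    exact Nat.mem_divisors.mpr ⟨lev_dvd (Finset.mem_powerset.mp hC), lev_ne_zero hN' hA⟩
  · intro L hL hL'
    by_contra hne
    apply hL'
    have hdvd := Nat.dvd_of_mem_divisors hL
    have hN : N' ∣ L := by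
      by_contra h
      exact hne (hF L hdvd h)
    obtain ⟨c, rfl⟩ := hN
    have hc : c ∣ ∏ q ∈ A, q := Nat.dvd_of_mul_dvd_mul_left (Nat.pos_of_ne_zero hN') hdvd
    have hsq : Squarefree (∏ q ∈ A, q) := by
      refine Finset.squarefree_prod_of_pairwise_isCoprime ?_ ?_
      · intro q hq q' hq' hne
        exact Nat.coprime_iff_isRelPrime.mp ((Nat.coprime_primes (hA q hq) (hA q' hq')).mpr hne)
      · intro q hq
        exact (hA q hq).prime.squarefree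
    have hcsq := hsq.squarefree_of_dvd hc
    rw [Finset.mem_image]
    refine ⟨c.primeFactors, ?_, ?_⟩
    · rw [Finset.mem_powerset, ← Nat.primeFactors_prod hA]
      exact Nat.primeFactors_mono hc hsq.ne_zero
    · rw [lev, Nat.prod_primeFactors_of_squarefree hcsq]

/-- number of divisors of a product of distinct primes -/
lemma card_divisors_prod {A : Finset ℕ} (hA : ∀ q ∈ A, q.Prime) :
    (∏ q ∈ A, q).divisors.card = 2 ^ A.card := by
  have h1 := sum_divisors_lev (N' := 1) one_ne_zero hA (fun _ => 1)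
    (fun L _ h => absurd (one_dvd L) h)
  rw [lev, one_mul] at h1
  rw [Finset.card_eq_sum_ones, h1, Finset.sum_const, smul_eq_mul, mul_one, Finset.card_powerset]

lemma card_divisors_lev {N' : ℕ} (hN' : N' ≠ 0) {A C : Finset ℕ} (hA : ∀ q ∈ A, q.Prime)
    (hC : C ⊆ A) : (lev N' A / lev N' C).divisors.card = 2 ^ (A \ C).card := by
  have h1 : lev N' A = lev N' C * ∏ q ∈ A \ C, q := by
    rw [lev, lev, mul_assoc, mul_comm (∏ q ∈ C, q), Finset.prod_sdiff hC]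
  rw [h1, Nat.mul_div_cancel_left _ (Nat.pos_of_ne_zero (lev_ne_zero hN'
    (fun q hq => hA q (hC hq))))]
  exact card_divisors_prod (fun q hq => hA q (Finset.mem_sdiff.mp hq).1)

/-- the count of newforms by their level -/
theorem sum_NF {N' D : ℕ} (hN' : N' ≠ 0) (hD : D ≠ 0) {A : Finset ℕ}
    (hA : ∀ q ∈ A, q.Prime) [NeZero (lev N' A)] (hAD : lev N' A ∣ D) (Lam : Set (Pr D → ℂ))
    (hnew : ∀ L, L ∣ lev N' A → ¬ N' ∣ L → Nat.card (NF D L Lam) = 0) :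
    finrank ℂ (gpart (TD (N := lev N' A) hAD) Lam) =
      ∑ C ∈ A.powerset, 2 ^ (A \ C).card * Nat.card (NF D (lev N' C) Lam) := by
  rw [Fermat.Agent.AL.finrank_gpart hD hAD Lam]
  rw [sum_divisors_lev hN' hA (fun L' => (lev N' A / L').divisors.card * Nat.card (NF D L' Lam))
    (fun L hL h => by simp only [hnew L hL h, mul_zero])]
  refine Finset.sum_congr rfl fun C hC => ?_
  rw [card_divisors_lev hN' hA (Finset.mem_powerset.mp hC)]

/-! ### The tower of coefficient systems -/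

section Tower

variable {k : Type*} [Field k] [IsAlgClosed k] (N' D : ℕ) (Q : Finset ℕ)
  (V : Finset ℕ → Type*) [∀ B, AddCommGroup (V B)] [∀ B, Module k (V B)]
  (σ : ∀ B, M2 →* Module.End k (V B)) (Λ : Set (Pr D → k))

/-- the dimensions -/
def hdim (A B : Finset ℕ) : ℕ :=
  if h : lev N' A ∣ D then finrank k (gpart (TH (σ B) h) Λ) else 0

lemma hdim_eq {A B : Finset ℕ} (h : lev N' A ∣ D) :
    hdim N' D V σ Λ A B = finrank k (gpart (TH (σ B) h) Λ) := dif_pos h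

lemma finrank_level_congr {W : Type*} [AddCommGroup W] [Module k W] (ρ : M2 →* Module.End k W)
    {M M' : ℕ} (e : M = M') (h : M ∣ D) (h' : M' ∣ D) :
    finrank k (gpart (TH ρ h) Λ) = finrank k (gpart (TH ρ h') Λ) := by
  subst e
  rfl

variable {N' D Q V σ Λ}

theorem hdim_insert (hfd : ∀ B ⊆ Q, FiniteDimensional k (V B)) (h2 : (2 : k) = 0)
    (hN' : N' ≠ 0) (hS : NoS N')
    (hQp : ∀ q ∈ Q, q.Prime) (hQ2 : ∀ q ∈ Q, q ≠ 2) (hQN : ∀ q ∈ Q, ¬ q ∣ N')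
    (hD : lev N' Q ∣ D)
    (hcong : ∀ B ⊆ Q, Cong (∏ q ∈ B, q) (σ B)) (hneg : ∀ B ⊆ Q, σ B (-1) = 1)
    (hR : ∀ (B : Finset ℕ) (q : ℕ) [Fact q.Prime], q ∉ B → insert q B ⊆ Q →
      ∃ e : V (insert q B) ≃ₗ[k] Th (R := k) q (V B),
        ∀ (A : M2) (v : V (insert q B)), e (σ (insert q B) A v) = thRep q (σ B) A (e v))
    (ℓ₁ : Pr D) (hℓ₁ : ((ℓ₁ : ℕ) : ZMod (∏ q ∈ Q, q)) = 1) (hodd : (ℓ₁ : ℕ) ≠ 2)
    (hΛ : ∀ χ ∈ Λ, χ ℓ₁ ≠ 0) {A B : Finset ℕ} (hA : A ⊆ Q) (hB : B ⊆ Q) {q : ℕ} (hq : q ∈ Q)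
    (hqA : q ∉ A) (hqB : q ∉ B) :
    hdim N' D V σ Λ (insert q A) B =
      2 * hdim N' D V σ Λ A B + hdim N' D V σ Λ A (insert q B) := by
  haveI : Fact q.Prime := ⟨hQp q hq⟩
  haveI := hfd B hB
  haveI := hfd (insert q B) (Finset.insert_subset hq hB)
  have hAD : lev N' A ∣ D := (lev_dvd hA).trans hD
  have hqAD : lev N' (insert q A) ∣ D := (lev_dvd (Finset.insert_subset hq hA)).trans hD
  have hqAD' : lev N' A * q ∣ D := by rw [← lev_insert hqA]; exact hqAD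
  haveI : NeZero (lev N' A) := ⟨lev_ne_zero hN' (fun p hp => hQp p (hA hp))⟩
  rw [hdim_eq N' D V σ Λ hqAD, hdim_eq N' D V σ Λ hAD, hdim_eq N' D V σ Λ hAD]
  rw [finrank_level_congr D Λ (σ B) (lev_insert hqA) hqAD hqAD']
  have hqM : ¬ q ∣ lev N' A := by
    rw [lev, (hQp q hq).dvd_mul, not_or]
    refine ⟨hQN q hq, fun h => ?_⟩
    obtain ⟨p, hp, hqp⟩ := (hQp q hq).prime.exists_mem_finset_dvd h
    have : q = p := (Nat.prime_dvd_prime_iff_eq (hQp q hq) (hQp p (hA hp))).mp hqp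
    exact hqA (this ▸ hp)
  have hdvd : (∏ p ∈ B, p) * q ∣ ∏ p ∈ Q, p := by
    have h4 : (∏ p ∈ B, p) * q = ∏ p ∈ insert q B, p := by
      rw [Finset.prod_insert hqB, mul_comm]
    rw [h4]
    exact Finset.prod_dvd_prod_of_subset _ _ _ (Finset.insert_subset hq hB)
  have hℓ : ((ℓ₁ : ℕ) : ZMod ((∏ p ∈ B, p) * q)) = 1 := by
    have h3 := congrArg (ZMod.castHom hdvd (ZMod ((∏ p ∈ B, p) * q))) hℓ₁
    rw [map_natCast, map_one] at h3
    exact h3
  rw [finrank_gpart_level h2 (hQ2 q hq) hqM (hcong B hB) (hneg B hB)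
    (NoS.of_dvd hS (Dvd.intro _ rfl)) hqAD' hAD Λ ℓ₁ hℓ hodd hΛ]
  congr 1
  obtain ⟨e, he⟩ := hR B q hqB (Finset.insert_subset hq hB)
  exact (finrank_gpart_H1_equiv e he hAD Λ).symm

/-- **The tower theorem.** -/
theorem hdim_main (hfd : ∀ B ⊆ Q, FiniteDimensional k (V B)) (h2 : (2 : k) = 0)
    (hN' : N' ≠ 0) (hS : NoS N')
    (hQp : ∀ q ∈ Q, q.Prime) (hQ2 : ∀ q ∈ Q, q ≠ 2) (hQN : ∀ q ∈ Q, ¬ q ∣ N')
    (hD : lev N' Q ∣ D)
    (hcong : ∀ B ⊆ Q, Cong (∏ q ∈ B, q) (σ B)) (hneg : ∀ B ⊆ Q, σ B (-1) = 1)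
    (hR : ∀ (B : Finset ℕ) (q : ℕ) [Fact q.Prime], q ∉ B → insert q B ⊆ Q →
      ∃ e : V (insert q B) ≃ₗ[k] Th (R := k) q (V B),
        ∀ (A : M2) (v : V (insert q B)), e (σ (insert q B) A v) = thRep q (σ B) A (e v))
    (ℓ₁ : Pr D) (hℓ₁ : ((ℓ₁ : ℕ) : ZMod (∏ q ∈ Q, q)) = 1) (hodd : (ℓ₁ : ℕ) ≠ 2)
    (hΛ : ∀ χ ∈ Λ, χ ℓ₁ ≠ 0) (n : Finset ℕ → ℕ)
    (h0 : ∀ A ⊆ Q, hdim N' D V σ Λ A ∅ = 2 * ∑ C ∈ A.powerset, 2 ^ (A \ C).card * n C) :
    hdim N' D V σ Λ ∅ Q = 2 * n Q := by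
  have h := count_abstract Q (hdim N' D V σ Λ) n h0
    (fun A hA B hB q hq hqA hqB _ => hdim_insert hfd h2 hN' hS hQp hQ2 hQN hD hcong hneg hR ℓ₁ hℓ₁
      hodd hΛ hA hB hq hqA hqB) Q subset_rfl ∅ (Finset.empty_subset _) (Finset.disjoint_empty_left _)
  rw [h]
  simp

end Tower

end Fermat.Agent.H28S
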