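import Mathlib
import Fermat.Agent.H28S.Tower
import Fermat.Agent.H29W.BFinal
import Fermat.Agent.H24H.Triv
import Fermat.Agent.H24H.Lower
import Fermat.Agent.H24H.Compare

set_option autoImplicit false
set_option linter.unusedSectionVars false
set_option linter.style.haveILetI false

/-!
# Package H: the number of newforms of level `N' ∏ Q` is at least the dimension of the space of
vector valued cusp forms of type the cuspidal Kirillov representation.
-/

noncomputable section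

namespace Fermat.Agent.H28S

open Fermat.Agent.H24ES Fermat.Agent.H24H Fermat.Agent.H29Z CongruenceSubgroup Matrix Module
open Fermat.Agent.TC (Pr TD)
open Fermat.Agent.AL (NF)
open scoped MatrixGroups

section sub

variable {d : ℤ} {Q : Finset ℕ}

lemma PB.mono' [PB Q] {B : Finset ℕ} (h : B ⊆ Q) : PB B := ⟨fun q hq => PB.prime q (h hq)⟩

lemma IB.mono' [IB d Q] {B : Finset ℕ} (h : B ⊆ Q) : IB d B :=
  ⟨fun q hq => IB.inert q (h hq)⟩

variable {R : Type*} [CommRing R]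

/-- restriction of the data -/
def resQ [PB Q] [IB d Q] (Dat : BData d Q R) {B : Finset ℕ} (h : B ⊆ Q) [PB B] [IB d B] :
    BData d B R := fun j => Dat ⟨j, h j.2⟩

open Classical in
/-- the tower of coefficient systems -/
def sigQ [PB Q] [IB d Q] (Dat : BData d Q R) (B : Finset ℕ) :
    M2 →* Module.End R ((ZMod (fB B))ˣ → R) :=
  if h : B ⊆ Q then
    haveI := PB.mono' h
    haveI := IB.mono' (d := d) h
    ofGL (fB B) (kirB (resQ Dat h))
  else 1

lemma sigQ_eq [PB Q] [IB d Q] (Dat : BData d Q R) {B : Finset ℕ} (h : B ⊆ Q) [PB B] [IB d B] :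
    sigQ Dat B = ofGL (fB B) (kirB (resQ Dat h)) := dif_pos h

lemma sigQ_self [PB Q] [IB d Q] (Dat : BData d Q R) :
    sigQ Dat Q = ofGL (fB Q) (kirB Dat) := sigQ_eq Dat subset_rfl

end sub

section final

variable {d : ℤ} {Q : Finset ℕ} [PB Q] [IB d Q]

lemma PB_empty : PB ∅ := ⟨fun _ h => absurd h (Finset.notMem_empty _)⟩

lemma IB_empty : IB d ∅ := ⟨fun _ h => absurd h (Finset.notMem_empty _)⟩

lemma sigQ_empty {R : Type*} [CommRing R] (Dat : BData d Q R) : sigQ Dat ∅ = 1 := by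
  haveI : PB ∅ := PB_empty
  haveI : IB d ∅ := IB_empty
  rw [sigQ_eq Dat (Finset.empty_subset _)]
  exact ofGL_kirB_empty _

/-- `(R)` for the tower -/
lemma exists_thIso {R : Type*} [CommRing R] (h2 : (2 : R) = 0) (Dat : BData d Q R)
    (hξ : ∀ i : Q, (Dat i).ξ = 1) (B : Finset ℕ) (q : ℕ) [Fact q.Prime] (hqB : q ∉ B)
    (hsub : insert q B ⊆ Q) :
    ∃ e : ((ZMod (fB (insert q B)))ˣ → R) ≃ₗ[R] Th (R := R) q ((ZMod (fB B))ˣ → R),
      ∀ (A : M2) (v : (ZMod (fB (insert q B)))ˣ → R),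
        e (sigQ Dat (insert q B) A v) = thRep q (sigQ Dat B) A (e v) := by
  have hB : B ⊆ Q := (Finset.subset_insert q B).trans hsub
  haveI : PB B := PB.mono' hB
  haveI : IB d B := IB.mono' (d := d) hB
  haveI : PB (insert q B) := PB.mono' hsub
  haveI : IB d (insert q B) := IB.mono' (d := d) hsub
  haveI : Inert (ZMod q) d := ⟨IB.inert q (hsub (Finset.mem_insert_self q B))⟩
  refine ⟨thIso hqB (resQ Dat hsub) h2, fun A v => ?_⟩
  rw [sigQ_eq Dat hsub, sigQ_eq Dat hB]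
  exact thIso_ofGL hqB (resQ Dat hsub) h2 (hξ ⟨q, hsub (Finset.mem_insert_self q B)⟩) A v

lemma cong_one {R V : Type*} [CommRing R] [AddCommGroup V] [Module R V] (c : ℕ) :
    Cong c (1 : M2 →* Module.End R V) := fun _ _ _ => rfl

variable {A : ValuationSubring ℂ} {N' D : ℕ}

/-- the base case of the induction -/
theorem base_count (hA : (2 : ℂ) ∈ A.nonunits) (hN' : N' ≠ 0) (hS : NoS N')
    (hD : D ≠ 0) (hlev : lev N' Q ∣ D) (a : Pr D → IsLocalRing.ResidueField A)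
    (ℓ₁ : Pr D) (hℓ₁ : ((ℓ₁ : ℕ) : ZMod D) = 1) (hodd : (ℓ₁ : ℕ) ≠ 2) (ha : a ℓ₁ ≠ 0)
    (hnew : ∀ L, L ∣ lev N' Q → ¬ N' ∣ L → Nat.card (NF D L (LamA A a)) = 0)
    (Dat : BData d Q (IsLocalRing.ResidueField A)) {B : Finset ℕ} (hB : B ⊆ Q) :
    hdim N' D (fun B => ((ZMod (fB B))ˣ → IsLocalRing.ResidueField A)) (sigQ Dat) {a} B ∅ =
      2 * ∑ C ∈ B.powerset, 2 ^ (B \ C).card * Nat.card (NF D (lev N' C) (LamA A a)) := by
  haveI hac : IsAlgClosed (IsLocalRing.ResidueField A) := H11Q.isAlgClosed_residueField A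
  have hBp : ∀ q ∈ B, q.Prime := fun q hq => PB.prime q (hB hq)
  have hBD : lev N' B ∣ D := (lev_dvd hB).trans hlev
  haveI : NeZero (lev N' B) := ⟨lev_ne_zero hN' hBp⟩
  haveI : PB ∅ := PB_empty
  rw [hdim_eq _ _ _ _ _ hBD, sigQ_empty]
  have e1 := finrank_compare (K := ℂ) (A := A) (J := (ZMod (fB ∅))ˣ) (N := lev N' B)
    (ρA := 1) (ρK := 1) (ρk := 1) (fun _ _ => rfl) (fun _ _ => rfl) rfl (cong_one 1) hA
    (NoS.of_dvd hS (Dvd.intro _ rfl)) hBD a ℓ₁ (Subsingleton.elim _ _) hodd ha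
  rw [← e1]
  rw [finrank_gpart_H1_equiv (ρ'' := triv ℂ) (emptyEquiv ℂ) (fun _ _ => rfl) hBD]
  have hℓD : (D : ℤ) ∣ ((ℓ₁ : ℕ) : ℤ) - 1 := by
    rw [← ZMod.intCast_zmod_eq_zero_iff_dvd]
    push_cast
    rw [hℓ₁, sub_self]
  have hχ : ∀ χ ∈ LamA A a, χ ℓ₁ ≠ (ℓ₁ : ℂ) + 1 := by
    intro χ hχ h
    obtain ⟨h1, h2⟩ := hχ ℓ₁
    apply ha
    rw [← h2]
    have h3 : (⟨χ ℓ₁, h1⟩ : A) ∈ IsLocalRing.maximalIdeal A := by
      rw [IsLocalRing.mem_maximalIdeal, mem_nonunits_iff]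
      intro hu
      obtain ⟨m, hm⟩ := ℓ₁.2.1.odd_of_ne_two hodd
      have h4 : χ ℓ₁ = 2 * ((m + 1 : ℕ) : ℂ) := by
        rw [h]
        have : ((ℓ₁ : ℕ) : ℂ) = ((2 * m + 1 : ℕ) : ℂ) := by rw [← hm]
        rw [this]
        push_cast
        ring
      have h5 : A.valuation (χ ℓ₁) = 1 := (ValuationSubring.valuation_eq_one_iff A _).mp hu
      rw [h4, map_mul] at h5
      have h6 : A.valuation (2 : ℂ) < 1 := by
        rwa [ValuationSubring.mem_nonunits_iff] at hA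
      have h7 : A.valuation ((m + 1 : ℕ) : ℂ) ≤ 1 := by
        rw [A.valuation_le_one_iff]
        exact natCast_mem A _
      have h8 := mul_lt_one_of_lt_of_le h6 h7
      rw [h5] at h8
      exact lt_irrefl _ h8
    exact (IsLocalRing.residue_eq_zero_iff _).mpr h3
  rw [finrank_gpart_triv hBD (LamA A a) ℓ₁ ((by exact_mod_cast hBD : ((lev N' B : ℕ) : ℤ) ∣ D).trans
    hℓD) hχ]
  rw [sum_NF hN' hD hBp hBD (LamA A a) (fun L hL h => hnew L (hL.trans (lev_dvd hB)) h)]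

/-- **The final output of package H.** -/
theorem finrank_le_card_NF (Dat : BData d Q ℂ) (h4 : ∀ (i : Q) (x), x ≠ 0 → (Dat i).ξ x ^ 4 = 1)
    (hA : (2 : ℂ) ∈ A.nonunits) (hQ : ∀ q ∈ Q, Odd q) [NeZero N']
    (hQN : ∀ q ∈ Q, ¬ q ∣ N') (hS : NoS N') (hD : D ≠ 0) (hlev : lev N' Q ∣ D) (hND : N' ∣ D)
    (a : Pr D → IsLocalRing.ResidueField A)
    (ℓ₁ : Pr D) (hℓ₁ : ((ℓ₁ : ℕ) : ZMod D) = 1) (hodd : (ℓ₁ : ℕ) ≠ 2) (ha : a ℓ₁ ≠ 0)
    (hnew : ∀ L, L ∣ lev N' Q → ¬ N' ∣ L → Nat.card (NF D L (LamA A a)) = 0) :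
    finrank ℂ (gpart (TV (ofGL (fB Q) (kirB Dat)) 2 hND) (LamA A a)) ≤
      Nat.card (NF D (lev N' Q) (LamA A a)) := by
  haveI hac : IsAlgClosed (IsLocalRing.ResidueField A) := H11Q.isAlgClosed_residueField A
  have hN' : N' ≠ 0 := NeZero.ne N'
  have h2 : (2 : IsLocalRing.ResidueField A) = 0 := two_eq_zero_residue A hA
  let Dk : BData d Q (IsLocalRing.ResidueField A) := Dat.red A hA hQ
  have hξ : ∀ i : Q, (Dk i).ξ = 1 := fun i => BData.red_ξ A Dat hA hQ i (h4 i)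
  have hfQ : ∀ B : Finset ℕ, fB B = ∏ q ∈ B, q := fB_eq
  -- congruences for `ℓ₁`
  have hcast : ∀ m : ℕ, m ∣ D → ((ℓ₁ : ℕ) : ZMod m) = 1 := by
    intro m hm
    have h3 := congrArg (ZMod.castHom hm (ZMod m)) hℓ₁
    rw [map_natCast, map_one] at h3
    exact h3
  have hprodD : (∏ q ∈ Q, q) ∣ D := (Dvd.intro_left N' rfl).trans hlev
  have hmain := hdim_main (k := IsLocalRing.ResidueField A) (N' := N') (D := D) (Q := Q)
    (V := fun B => ((ZMod (fB B))ˣ → IsLocalRing.ResidueField A)) (σ := sigQ Dk) (Λ := {a})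
    (fun B hB => by
      haveI : PB B := PB.mono' hB
      infer_instance)
    h2 hN' hS (fun q hq => PB.prime q hq) (fun q hq h => by
      have := hQ q hq
      rw [h] at this
      exact absurd this (by decide)) hQN hlev
    (fun B hB => by
      haveI : PB B := PB.mono' hB
      haveI : IB d B := IB.mono' (d := d) hB
      rw [sigQ_eq Dk hB, ← hfQ B]
      exact cong_ofGL _)
    (fun B hB => by
      haveI : PB B := PB.mono' hB
      haveI : IB d B := IB.mono' (d := d) hB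
      rw [sigQ_eq Dk hB]
      exact ofGL_kirB_neg_one _)
    (fun B q _ hqB hsub => exists_thIso h2 Dk hξ B q hqB hsub)
    ℓ₁ (hcast _ hprodD) hodd (fun χ hχ => by rw [Set.mem_singleton_iff.mp hχ]; exact ha)
    (fun C => Nat.card (NF D (lev N' C) (LamA A a)))
    (fun B hB => base_count hA hN' hS hD hlev a ℓ₁ hℓ₁ hodd ha hnew Dk hB)
  have hlevE : lev N' ∅ ∣ D := by rw [lev_empty]; exact hND
  rw [hdim_eq _ _ _ _ _ hlevE, finrank_level_congr D {a} (sigQ Dk Q) (lev_empty N') hlevE hND,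
    sigQ_self] at hmain
  -- comparison
  have hcmp := finrank_compare (K := ℂ) (A := A) (J := (ZMod (fB Q))ˣ) (N := N')
    (ρA := ofGL (fB Q) (kirB (Dat.toA A hA hQ))) (ρK := ofGL (fB Q) (kirB Dat))
    (ρk := ofGL (fB Q) (kirB Dk))
    (fun m v => (ofGL_toA A Dat hA hQ m v).symm) (fun m v => (ofGL_red A Dat hA hQ m v).symm)
    (ofGL_kirB_neg_one _) (cong_ofGL _) hA hS hND a ℓ₁
    (hcast _ (by rw [hfQ]; exact hprodD)) hodd ha
  rw [← hcmp] at hmain
  have hlow := two_mul_finrank_vForms_le (kirB Dat) (kirB_neg_one Dat) hND (LamA A a)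
  rw [hmain] at hlow
  omega

end final

end Fermat.Agent.H28S
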